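import Fermat.Agent.S27.F.Main

/-!
# S27, block [F]: the counting theorem with the `m`-fold total boundedness hypothesis
-/

set_option autoImplicit false

namespace Fermat.Agent.S27

open Metric Set Filter Topology F

theorem F.sum_mem_W {J : Type*} [AddCommGroup J] {E : Type*} [NormedAddCommGroup E]
    [NormedSpace ℝ E] {φ : E → J} {ρ : ℝ} (hc : IsChart φ ρ) {ι : Type*} (t : Finset ι)
    (u : ι → E) (s : ℝ) (hs : 0 < s) (hu : ∀ i ∈ t, ‖u i‖ < s)
    (hρ : (2 * (t.card : ℝ) + 1) * s ≤ ρ) :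
    ∑ i ∈ t, φ (u i) ∈ W φ ((2 * (t.card : ℝ) + 1) * s) := by
  classical
  induction t using Finset.induction_on with
  | empty => simpa using hc.zero_mem hs
  | insert a t ha ih =>
    rw [Finset.card_insert_of_notMem ha] at hρ ⊢
    push_cast at hρ ⊢
    rw [Finset.sum_insert ha, add_comm (φ (u a))]
    have h1 : (2 * (t.card : ℝ) + 1) * s ≤ ρ := by nlinarith
    have h2 := ih (fun i hi => hu i (Finset.mem_insert_of_mem hi)) h1
    have h3 : φ (u a) ∈ W φ s := mem_W.mpr ⟨u a, hu a (Finset.mem_insert_self a t), rfl⟩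
    have h4 : s ≤ ρ := by
      have : (0 : ℝ) ≤ t.card := Nat.cast_nonneg _
      nlinarith
    have h5 := hc.add_mem h1 h4 h2 h3
    have h6 : (2 * ((t.card : ℝ) + 1) + 1) * s = (2 * (t.card : ℝ) + 1) * s + 2 * s := by ring
    rw [h6]
    exact h5

/-- [F-main'] abstract counting theorem, `m`-fold total boundedness. -/
theorem card_torsion_of_chart_multi
    {J : Type*} [AddCommGroup J]
    {E : Type*} [NormedAddCommGroup E] [NormedSpace ℝ E] [FiniteDimensional ℝ E]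
    (φ : E → J) (M : E × E → E) (r₀ : ℝ) (hr₀ : 0 < r₀)
    (hinj : Set.InjOn φ (ball (0 : E) r₀)) (h0 : φ 0 = 0)
    (hM0 : M (0, 0) = 0)
    (hM : ∃ L : E × E →L[ℝ] E, HasStrictFDerivAt M L (0, 0))
    (hadd : ∀ᶠ p : E × E in 𝓝 (0, 0), φ (M p) = φ p.1 + φ p.2)
    (htb : ∃ m : ℕ, ∀ r : ℝ, 0 < r → ∃ T : Finset J, ∀ c : J, ∃ t ∈ T, ∃ u : Fin m → E,
      (∀ i, u i ∈ ball (0 : E) r) ∧ c = t + ∑ i, φ (u i))
    (hconn : ∀ r : ℝ, 0 < r → AddSubgroup.closure (φ '' ball (0 : E) r) = ⊤)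
    (n : ℕ) (hn : 0 < n) :
    Nat.card {c : J // n • c = 0} = n ^ Module.finrank ℝ E := by
  refine card_torsion_of_chart φ M r₀ hr₀ hinj h0 hM0 hM hadd ?_ hconn n hn
  obtain ⟨ρ, hc⟩ := exists_isChart φ M r₀ hr₀ hinj h0 hM0 hM hadd
  obtain ⟨m, htb⟩ := htb
  intro r hr
  have hm : (0 : ℝ) < 2 * (m : ℝ) + 1 := by positivity
  set s : ℝ := min r ρ / (2 * (m : ℝ) + 1) with hs
  have hs0 : 0 < s := div_pos (lt_min hr hc.pos) hm
  have hsm : (2 * (m : ℝ) + 1) * s = min r ρ := by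
    rw [hs]; field_simp
  obtain ⟨T, hT⟩ := htb s hs0
  refine ⟨T, fun c => ?_⟩
  obtain ⟨t, ht, u, hu, rfl⟩ := hT c
  have key := F.sum_mem_W hc Finset.univ u s hs0
    (fun i _ => by simpa using hu i) (by
      rw [Finset.card_univ, Fintype.card_fin, hsm]; exact min_le_right _ _)
  rw [Finset.card_univ, Fintype.card_fin, hsm] at key
  obtain ⟨y, hy, hφ⟩ := mem_W.mp key
  exact ⟨t, ht, y, by simpa using hy.trans_le (min_le_left _ _), by rw [hφ]⟩

end Fermat.Agent.S27
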