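import Mathlib

/-!
# S27, block [F]: abstract counting theorem `#J[n] = n ^ dim E`.  Common definitions.

`J` is an abstract abelian group, `φ : E → J` a "chart at `0`".  `W φ r = φ '' ball 0 r`.
All the analysis is hidden in the two structures `IsChart` and `IsMulChart`.
-/

set_option autoImplicit false

namespace Fermat.Agent.S27.F

open Metric Set

variable {J : Type*} [AddCommGroup J] {E : Type*} [NormedAddCommGroup E] [NormedSpace ℝ E]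

/-- the image of the ball of radius `r`. -/
def W (φ : E → J) (r : ℝ) : Set J := φ '' ball (0 : E) r

theorem mem_W {φ : E → J} {r : ℝ} {x : J} : x ∈ W φ r ↔ ∃ u : E, ‖u‖ < r ∧ φ u = x := by
  simp [W, Set.mem_image]

/-- `φ` is a chart of a local group: translates of small `W s` are comparable with balls. -/
structure IsChart (φ : E → J) (ρ : ℝ) : Prop where
  pos : 0 < ρ
  zero : φ 0 = 0
  inj : Set.InjOn φ (ball (0 : E) (3 * ρ))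
  lower : ∀ (u y : E) (s : ℝ), ‖u‖ < ρ → s ≤ ρ → ‖y - u‖ < s / 2 →
    ∃ v : E, ‖v‖ < s ∧ φ y = φ u + φ v
  upper : ∀ u v : E, ‖u‖ < ρ → ‖v‖ < ρ → ∃ y : E, ‖y - u‖ ≤ 2 * ‖v‖ ∧ φ y = φ u + φ v

/-- multiplication by `n` in the chart is `n • id` up to an error `‖u‖ / 2`. -/
structure IsMulChart (φ : E → J) (n : ℕ) (ρ : ℝ) : Prop where
  pos : 0 < ρ
  upper : ∀ u : E, ‖u‖ < ρ → ∃ y : E, ‖y - (n : ℝ) • u‖ ≤ ‖u‖ / 2 ∧ φ y = n • φ u
  lower : ∀ (y : E) (r : ℝ), r ≤ ρ → ‖y‖ < ((n : ℝ) - 1 / 2) * r → ∃ u : E, ‖u‖ < r ∧ φ y = n • φ u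
  tors : ∀ u : E, ‖u‖ < ρ → n • φ u = 0 → u = 0

/-- `T` is `r`-separated. -/
def IsSep (φ : E → J) (r : ℝ) (T : Finset J) : Prop :=
  ∀ t ∈ T, ∀ t' ∈ T, t ≠ t' → t - t' ∉ W φ r

/-- `T` is an `r`-cover. -/
def IsCover (φ : E → J) (r : ℝ) (T : Finset J) : Prop :=
  ∀ c : J, ∃ t ∈ T, c - t ∈ W φ r

/-- the Euclidean input: maximal `r`-separated subsets of `ball 0 R`. -/
def NetStatement (E : Type*) [NormedAddCommGroup E] [NormedSpace ℝ E] : Prop :=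
  ∀ R r : ℝ, 0 < R → 0 < r → ∃ S : Finset E,
    (∀ s ∈ S, ‖s‖ < R) ∧ (∀ s ∈ S, ∀ t ∈ S, s ≠ t → r ≤ ‖s - t‖) ∧
    (∀ x : E, ‖x‖ < R → ∃ s ∈ S, ‖x - s‖ < r) ∧
    (R / r) ^ Module.finrank ℝ E ≤ (S.card : ℝ) ∧
    (S.card : ℝ) ≤ (1 + 2 * R / r) ^ Module.finrank ℝ E

variable {φ : E → J} {ρ : ℝ}

theorem W_mono {r s : ℝ} (h : r ≤ s) : W φ r ⊆ W φ s :=
  Set.image_mono (ball_subset_ball h)

theorem IsChart.zero_mem (hc : IsChart φ ρ) {r : ℝ} (hr : 0 < r) : (0 : J) ∈ W φ r :=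
  mem_W.mpr ⟨0, by simpa using hr, hc.zero⟩

theorem IsChart.add_mem (hc : IsChart φ ρ) {a b : ℝ} (ha : a ≤ ρ) (hb : b ≤ ρ) {x y : J}
    (hx : x ∈ W φ a) (hy : y ∈ W φ b) : x + y ∈ W φ (a + 2 * b) := by
  obtain ⟨u, hu, rfl⟩ := mem_W.mp hx
  obtain ⟨v, hv, rfl⟩ := mem_W.mp hy
  obtain ⟨w, hw, hφ⟩ := hc.upper u v (hu.trans_le ha) (hv.trans_le hb)
  refine mem_W.mpr ⟨w, ?_, hφ⟩
  have h1 : ‖w‖ ≤ ‖w - u‖ + ‖u‖ := by
    have := norm_add_le (w - u) u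
    simpa using this
  linarith

theorem IsChart.neg_mem (hc : IsChart φ ρ) {a : ℝ} (ha : 2 * a ≤ ρ) {x : J}
    (hx : x ∈ W φ a) : -x ∈ W φ (2 * a) := by
  obtain ⟨u, hu, rfl⟩ := mem_W.mp hx
  have ha0 : 0 < a := (norm_nonneg u).trans_lt hu
  obtain ⟨v, hv, hφ⟩ := hc.lower u 0 (2 * a) (by linarith) ha (by
    rw [zero_sub, norm_neg]; linarith)
  refine mem_W.mpr ⟨v, hv, ?_⟩
  rw [hc.zero] at hφ
  exact (neg_eq_of_add_eq_zero_right hφ.symm).symm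

theorem IsChart.sub_mem (hc : IsChart φ ρ) {a b : ℝ} (ha : a ≤ ρ) (hb : 2 * b ≤ ρ) {x y : J}
    (hx : x ∈ W φ a) (hy : y ∈ W φ b) : x - y ∈ W φ (a + 4 * b) := by
  have h := hc.add_mem ha hb hx (hc.neg_mem hb hy)
  rw [sub_eq_add_neg]
  convert h using 2
  ring

theorem IsSep.mono {r s : ℝ} (h : r ≤ s) {T : Finset J} (hT : IsSep φ s T) : IsSep φ r T :=
  fun t ht t' ht' hne hmem => hT t ht t' ht' hne (W_mono h hmem)

theorem IsCover.mono {r s : ℝ} (h : r ≤ s) {T : Finset J} (hT : IsCover φ r T) : IsCover φ s T :=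
  fun c => by
    obtain ⟨t, ht, hmem⟩ := hT c
    exact ⟨t, ht, W_mono h hmem⟩

end Fermat.Agent.S27.F
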