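import Fermat.Agent.S27.F.Defs

/-!
# S27 [F], package F-A0: the derivative of the local group law is `fst + snd`
-/

set_option autoImplicit false

namespace Fermat.Agent.S27.F

open Metric Set Topology Filter

variable {J : Type*} [AddCommGroup J] {E : Type*} [NormedAddCommGroup E] [NormedSpace ℝ E]

/-- common part of `eventually_M_left`, `eventually_M_right`. -/
theorem deriv_eventually_aux (φ : E → J) (M : E × E → E) (r₀ : ℝ) (hr₀ : 0 < r₀)
    (hinj : Set.InjOn φ (ball (0 : E) r₀)) (hM0 : M (0, 0) = 0)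
    (hM : ∃ L : E × E →L[ℝ] E, HasStrictFDerivAt M L (0, 0))
    (hadd : ∀ᶠ p : E × E in 𝓝 (0, 0), φ (M p) = φ p.1 + φ p.2)
    (ι : E → E × E) (hι : Tendsto ι (𝓝 0) (𝓝 (0, 0)))
    (hφ : ∀ u, φ (ι u).1 + φ (ι u).2 = φ u) :
    ∀ᶠ u : E in 𝓝 0, M (ι u) = u := by
  obtain ⟨L, hL⟩ := hM
  have hcont : Tendsto M (𝓝 (0, 0)) (𝓝 0) := by
    have := hL.continuousAt.tendsto
    rwa [hM0] at this
  have h1 : ∀ᶠ p : E × E in 𝓝 (0, 0), M p ∈ ball (0 : E) r₀ :=
    hcont.eventually (ball_mem_nhds 0 hr₀)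
  have h2 : ∀ᶠ u : E in 𝓝 0, u ∈ ball (0 : E) r₀ := ball_mem_nhds 0 hr₀
  filter_upwards [hι.eventually hadd, hι.eventually h1, h2] with u hu1 hu2 hu3
  exact hinj hu2 hu3 (by rw [hu1, hφ])

theorem eventually_M_left (φ : E → J) (M : E × E → E) (r₀ : ℝ) (hr₀ : 0 < r₀)
    (hinj : Set.InjOn φ (ball (0 : E) r₀)) (h0 : φ 0 = 0) (hM0 : M (0, 0) = 0)
    (hM : ∃ L : E × E →L[ℝ] E, HasStrictFDerivAt M L (0, 0))
    (hadd : ∀ᶠ p : E × E in 𝓝 (0, 0), φ (M p) = φ p.1 + φ p.2) :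
    ∀ᶠ u : E in 𝓝 0, M (u, 0) = u := by
  refine deriv_eventually_aux φ M r₀ hr₀ hinj hM0 hM hadd (fun u => (u, 0)) ?_ (fun u => ?_)
  · exact (Continuous.prodMk continuous_id continuous_const).tendsto' _ _ rfl
  · simp [h0]

theorem eventually_M_right (φ : E → J) (M : E × E → E) (r₀ : ℝ) (hr₀ : 0 < r₀)
    (hinj : Set.InjOn φ (ball (0 : E) r₀)) (h0 : φ 0 = 0) (hM0 : M (0, 0) = 0)
    (hM : ∃ L : E × E →L[ℝ] E, HasStrictFDerivAt M L (0, 0))
    (hadd : ∀ᶠ p : E × E in 𝓝 (0, 0), φ (M p) = φ p.1 + φ p.2) :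
    ∀ᶠ u : E in 𝓝 0, M (0, u) = u := by
  refine deriv_eventually_aux φ M r₀ hr₀ hinj hM0 hM hadd (fun u => (0, u)) ?_ (fun u => ?_)
  · exact (Continuous.prodMk continuous_const continuous_id).tendsto' _ _ rfl
  · simp [h0]

theorem hasStrictFDerivAt_M (φ : E → J) (M : E × E → E) (r₀ : ℝ) (hr₀ : 0 < r₀)
    (hinj : Set.InjOn φ (ball (0 : E) r₀)) (h0 : φ 0 = 0) (hM0 : M (0, 0) = 0)
    (hM : ∃ L : E × E →L[ℝ] E, HasStrictFDerivAt M L (0, 0))
    (hadd : ∀ᶠ p : E × E in 𝓝 (0, 0), φ (M p) = φ p.1 + φ p.2) :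
    HasStrictFDerivAt M (ContinuousLinearMap.fst ℝ E E + ContinuousLinearMap.snd ℝ E E) (0, 0) := by
  have hl := eventually_M_left φ M r₀ hr₀ hinj h0 hM0 hM hadd
  have hr := eventually_M_right φ M r₀ hr₀ hinj h0 hM0 hM hadd
  obtain ⟨L, hL⟩ := hM
  have hLl : L.comp (ContinuousLinearMap.inl ℝ E E) = ContinuousLinearMap.id ℝ E := by
    have h1 : HasFDerivAt (fun u : E => M (u, 0)) (L.comp (ContinuousLinearMap.inl ℝ E E)) 0 := by
      have h2 : HasFDerivAt (fun u : E => ((u, 0) : E × E)) (ContinuousLinearMap.inl ℝ E E) 0 :=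
        (ContinuousLinearMap.inl ℝ E E).hasFDerivAt
      exact HasFDerivAt.comp (g := M) (0 : E) hL.hasFDerivAt h2
    have h3 : HasFDerivAt (fun u : E => M (u, 0)) (ContinuousLinearMap.id ℝ E) 0 :=
      (hasFDerivAt_id (0 : E)).congr_of_eventuallyEq hl
    exact h1.unique h3
  have hLr : L.comp (ContinuousLinearMap.inr ℝ E E) = ContinuousLinearMap.id ℝ E := by
    have h1 : HasFDerivAt (fun u : E => M (0, u)) (L.comp (ContinuousLinearMap.inr ℝ E E)) 0 := by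
      have h2 : HasFDerivAt (fun u : E => ((0, u) : E × E)) (ContinuousLinearMap.inr ℝ E E) 0 :=
        (ContinuousLinearMap.inr ℝ E E).hasFDerivAt
      exact HasFDerivAt.comp (g := M) (0 : E) hL.hasFDerivAt h2
    have h3 : HasFDerivAt (fun u : E => M (0, u)) (ContinuousLinearMap.id ℝ E) 0 :=
      (hasFDerivAt_id (0 : E)).congr_of_eventuallyEq hr
    exact h1.unique h3
  have hLeq : L = ContinuousLinearMap.fst ℝ E E + ContinuousLinearMap.snd ℝ E E := by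
    refine ContinuousLinearMap.ext (fun p => ?_)
    obtain ⟨u, v⟩ := p
    have h1 : L (u, 0) = u := DFunLike.congr_fun hLl u
    have h2 : L (0, v) = v := DFunLike.congr_fun hLr v
    have h3 : ((u, v) : E × E) = (u, 0) + (0, v) := by simp
    rw [h3, map_add, h1, h2]
    simp
  rw [← hLeq]
  exact hL

end Fermat.Agent.S27.F
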