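import Fermat.Agent.S27.F.Defs

/-!
# S27 [F], package F-D: divisibility of `J`, and `#J[n^k] = #J[n]^k`
-/

set_option autoImplicit false

namespace Fermat.Agent.S27.F

open Metric Set

variable {J : Type*} [AddCommGroup J] {E : Type*} [NormedAddCommGroup E] [NormedSpace ℝ E]
variable {φ : E → J} {ρn : ℝ}

theorem divisible (hconn : ∀ r : ℝ, 0 < r → AddSubgroup.closure (φ '' ball (0 : E) r) = ⊤)
    {n : ℕ} (hn : 0 < n) (hm : IsMulChart φ n ρn) : ∀ c : J, ∃ b : J, n • b = c := by
  have hn1 : (1 : ℝ) ≤ n := by exact_mod_cast hn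
  have hr : 0 < ((n : ℝ) - 1 / 2) * ρn := mul_pos (by linarith) hm.pos
  have hle : AddSubgroup.closure (φ '' ball (0 : E) (((n : ℝ) - 1 / 2) * ρn)) ≤
      (nsmulAddMonoidHom (α := J) n).range := by
    rw [AddSubgroup.closure_le]
    rintro _ ⟨y, hy, rfl⟩
    rw [mem_ball_zero_iff] at hy
    obtain ⟨u, _, hu⟩ := hm.lower y ρn le_rfl hy
    exact ⟨φ u, hu.symm⟩
  rw [hconn _ hr] at hle
  intro c
  obtain ⟨b, hb⟩ := hle (AddSubgroup.mem_top c)
  exact ⟨b, hb⟩

theorem card_tors_pow {J : Type*} [AddCommGroup J] (n : ℕ) (hdiv : ∀ c : J, ∃ b : J, n • b = c)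
    (hfin : {c : J | n • c = 0}.Finite) (k : ℕ) :
    {c : J | n ^ k • c = 0}.Finite ∧
      Nat.card {c : J // n ^ k • c = 0} = Nat.card {c : J // n • c = 0} ^ k := by
  choose σ hσ using hdiv
  induction k with
  | zero =>
    constructor
    · simp
    · simp
  | succ k ih =>
    obtain ⟨ihf, ihc⟩ := ih
    let e : {c : J // n ^ (k + 1) • c = 0} ≃ {c : J // n ^ k • c = 0} × {c : J // n • c = 0} :=
      { toFun := fun c => (⟨n • c.1, by rw [← mul_smul, ← pow_succ]; exact c.2⟩,
          ⟨c.1 - σ (n • c.1), by rw [smul_sub, hσ, sub_self]⟩)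
        invFun := fun bz => ⟨σ bz.1.1 + bz.2.1, by
          rw [pow_succ, mul_smul, smul_add, hσ, bz.2.2, add_zero]; exact bz.1.2⟩
        left_inv := fun c => by
          apply Subtype.ext
          simp
        right_inv := fun bz => by
          have h1 : n • (σ bz.1.1 + bz.2.1) = bz.1.1 := by
            rw [smul_add, hσ, bz.2.2, add_zero]
          apply Prod.ext
          · apply Subtype.ext
            exact h1
          · apply Subtype.ext
            change σ bz.1.1 + bz.2.1 - σ (n • (σ bz.1.1 + bz.2.1)) = bz.2.1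
            rw [h1]
            abel }
    haveI : Finite {c : J // n ^ k • c = 0} := ihf
    haveI : Finite {c : J // n • c = 0} := hfin
    constructor
    · exact (Finite.of_equiv _ e.symm : Finite {c : J // n ^ (k + 1) • c = 0})
    · rw [Nat.card_congr e, Nat.card_prod, ihc, pow_succ]

end Fermat.Agent.S27.F
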