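import Mathlib

/-!
# S27 [F], package F-L: `c b^k ≤ a^k ≤ C b^k` for all large `k` forces `a = b`
-/

set_option autoImplicit false

namespace Fermat.Agent.S27.F

open Filter in
theorem eq_of_pow_bounds (a b : ℕ) (hb : 0 < b) (c C : ℝ) (hc : 0 < c) (k₀ : ℕ)
    (h : ∀ k : ℕ, k₀ ≤ k → c * (b : ℝ) ^ k ≤ (a : ℝ) ^ k ∧ (a : ℝ) ^ k ≤ C * (b : ℝ) ^ k) :
    a = b := by
  have hb' : (0 : ℝ) < b := by exact_mod_cast hb
  have hx : ∀ k : ℕ, k₀ ≤ k → c ≤ ((a : ℝ) / b) ^ k ∧ ((a : ℝ) / b) ^ k ≤ C := by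
    intro k hk
    obtain ⟨h1, h2⟩ := h k hk
    have hbk : (0 : ℝ) < (b : ℝ) ^ k := pow_pos hb' k
    rw [div_pow]
    exact ⟨(le_div_iff₀ hbk).mpr h1, (div_le_iff₀ hbk).mpr h2⟩
  rcases lt_trichotomy a b with hab | hab | hab
  · exfalso
    have h1 : (a : ℝ) / b < 1 := by
      rw [div_lt_one hb']
      exact_mod_cast hab
    have h0 : (0 : ℝ) ≤ (a : ℝ) / b := by positivity
    have ht := tendsto_pow_atTop_nhds_zero_of_lt_one h0 h1
    have hev : ∀ᶠ k in atTop, ((a : ℝ) / b) ^ k < c := ht.eventually (gt_mem_nhds hc)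
    obtain ⟨k, hk1, hk2⟩ := (hev.and (eventually_ge_atTop k₀)).exists
    exact absurd (hx k hk2).1 (not_le.mpr hk1)
  · exact hab
  · exfalso
    have h1 : 1 < (a : ℝ) / b := by
      rw [one_lt_div hb']
      exact_mod_cast hab
    have ht := tendsto_pow_atTop_atTop_of_one_lt h1
    have hev : ∀ᶠ k in atTop, C < ((a : ℝ) / b) ^ k := ht.eventually (eventually_gt_atTop C)
    obtain ⟨k, hk1, hk2⟩ := (hev.and (eventually_ge_atTop k₀)).exists
    exact absurd (hx k hk2).2 (not_le.mpr hk1)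

end Fermat.Agent.S27.F
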