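import Mathlib

/-!
# S27 [F], common tool of packages F-A1 / F-A2: quantitative local surjectivity

If `f` is `c`-close to `a • id` on `ball 0 R` with `c < a`, then `f` hits every `y` with
`‖y - f 0‖ < (a - c) * r` at a point of `ball 0 r` (`r ≤ R`).
-/

set_option autoImplicit false

namespace Fermat.Agent.S27.F

open Metric Set Topology Filter

theorem solve_exists {E : Type*} [NormedAddCommGroup E] [NormedSpace ℝ E] [CompleteSpace E]
    (f : E → E) (a c R : ℝ) (hc : 0 ≤ c) (hca : c < a)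
    (hf : ∀ u u' : E, ‖u‖ < R → ‖u'‖ < R → ‖f u - f u' - a • (u - u')‖ ≤ c * ‖u - u'‖)
    (y : E) (r : ℝ) (hr : r ≤ R) (hy : ‖y - f 0‖ < (a - c) * r) :
    ∃ u : E, ‖u‖ < r ∧ f u = y := by
  have ha : 0 < a := lt_of_le_of_lt hc hca
  have hac : 0 < a - c := sub_pos.mpr hca
  set f' : E →L[ℝ] E := a • ContinuousLinearMap.id ℝ E with hf'
  have happ : ApproximatesLinearOn f f' (ball (0 : E) R) ⟨c, hc⟩ := by
    intro u hu u' hu'
    have := hf u u' (by simpa using hu) (by simpa using hu')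
    show ‖f u - f u' - f' (u - u')‖ ≤ c * ‖u - u'‖
    simpa [hf'] using this
  let g : f'.NonlinearRightInverse :=
    { toFun := fun z => a⁻¹ • z
      nnnorm := ⟨a⁻¹, (inv_pos.mpr ha).le⟩
      bound' := fun z => by
        rw [norm_smul, Real.norm_of_nonneg (inv_pos.mpr ha).le]
        rfl
      right_inv' := fun z => by
        simp [hf', smul_smul, inv_mul_cancel₀ ha.ne'] }
  set ε : ℝ := ‖y - f 0‖ / (a - c) with hε
  have hε0 : 0 ≤ ε := div_nonneg (norm_nonneg _) hac.le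
  have hεr : ε < r := by
    rw [hε, div_lt_iff₀ hac]
    linarith
  have hsub : closedBall (0 : E) ε ⊆ ball (0 : E) R :=
    closedBall_subset_ball (hεr.trans_le hr)
  have hsurj := happ.surjOn_closedBall_of_nonlinearRightInverse g hε0 hsub
  have hmem : y ∈ closedBall (f 0) ((((g.nnnorm : NNReal) : ℝ)⁻¹ - ((⟨c, hc⟩ : NNReal) : ℝ)) * ε) := by
    rw [mem_closedBall, dist_eq_norm]
    have h1 : (((g.nnnorm : NNReal) : ℝ)⁻¹ - ((⟨c, hc⟩ : NNReal) : ℝ)) = a - c := by
      show (a⁻¹)⁻¹ - c = a - c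
      rw [inv_inv]
    rw [h1, hε, mul_div_cancel₀ _ hac.ne']
  obtain ⟨u, hu, hfu⟩ := hsurj hmem
  refine ⟨u, ?_, hfu⟩
  have : ‖u‖ ≤ ε := by simpa using hu
  linarith

end Fermat.Agent.S27.F
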