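import Fermat.Agent.S27.F.Deriv
import Fermat.Agent.S27.F.Solve

/-!
# S27 [F], package F-A1: existence of a chart radius
-/

set_option autoImplicit false

namespace Fermat.Agent.S27.F

open Metric Set Topology Filter

variable {J : Type*} [AddCommGroup J] {E : Type*} [NormedAddCommGroup E] [NormedSpace ℝ E]
  [FiniteDimensional ℝ E]

theorem exists_isChart (φ : E → J) (M : E × E → E) (r₀ : ℝ) (hr₀ : 0 < r₀)
    (hinj : Set.InjOn φ (ball (0 : E) r₀)) (h0 : φ 0 = 0) (hM0 : M (0, 0) = 0)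
    (hM : ∃ L : E × E →L[ℝ] E, HasStrictFDerivAt M L (0, 0))
    (hadd : ∀ᶠ p : E × E in 𝓝 (0, 0), φ (M p) = φ p.1 + φ p.2) :
    ∃ ρ : ℝ, IsChart φ ρ := by
  have : CompleteSpace E := FiniteDimensional.complete ℝ E
  have hD := hasStrictFDerivAt_M φ M r₀ hr₀ hinj h0 hM0 hM hadd
  have hL := eventually_M_left φ M r₀ hr₀ hinj h0 hM0 hM hadd
  obtain ⟨s, hs, happ⟩ := hD.approximates_deriv_on_nhds (c := (1 / 10 : NNReal))
    (Or.inr (by norm_num))
  have hL' : ∀ᶠ p : E × E in 𝓝 (0, 0), M (p.1, 0) = p.1 := by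
    have hc : Tendsto (fun p : E × E => p.1) (𝓝 (0, 0)) (𝓝 0) :=
      (continuous_fst.tendsto' (0, 0) 0 rfl)
    exact hc.eventually hL
  have hall : ∀ᶠ p : E × E in 𝓝 (0, 0),
      p ∈ s ∧ φ (M p) = φ p.1 + φ p.2 ∧ M (p.1, 0) = p.1 :=
    (eventually_mem_set.mpr hs).and (hadd.and hL')
  obtain ⟨ρ', hρ', hball⟩ := Metric.eventually_nhds_iff_ball.mp hall
  have key : ∀ u v : E, ‖u‖ < ρ' → ‖v‖ < ρ' →
      (u, v) ∈ s ∧ φ (M (u, v)) = φ u + φ v ∧ M (u, 0) = u := by
    intro u v hu hv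
    have : (u, v) ∈ ball ((0 : E), (0 : E)) ρ' := by
      rw [← ball_prod_same]
      exact ⟨by simpa using hu, by simpa using hv⟩
    exact hball _ this
  have hlin : ∀ u v v' : E, ‖u‖ < ρ' → ‖v‖ < ρ' → ‖v'‖ < ρ' →
      ‖M (u, v) - M (u, v') - (1 : ℝ) • (v - v')‖ ≤ 1 / 10 * ‖v - v'‖ := by
    intro u v v' hu hv hv'
    have h := happ (u, v) (key u v hu hv).1 (u, v') (key u v' hu hv').1
    have e1 : ((u, v) : E × E) - (u, v') = (0, v - v') := by simp
    rw [e1] at h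
    have e2 : ‖((0 : E), v - v')‖ = ‖v - v'‖ := by simp [Prod.norm_def]
    rw [e2] at h
    simpa using h
  refine ⟨min ρ' (r₀ / 3), ?_, h0, ?_, ?_, ?_⟩
  · exact lt_min hρ' (by positivity)
  · refine hinj.mono (ball_subset_ball ?_)
    have := min_le_right ρ' (r₀ / 3)
    linarith
  · intro u y t hu ht hy
    have hu' : ‖u‖ < ρ' := hu.trans_le (min_le_left _ _)
    have ht' : t ≤ ρ' := ht.trans (min_le_left _ _)
    have ht0 : 0 < t := by
      have := norm_nonneg (y - u)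
      linarith
    have hu0 : M (u, 0) = u := (key u 0 hu' (by simpa using hρ')).2.2
    obtain ⟨v, hv, hMv⟩ := solve_exists (fun v => M (u, v)) 1 (1 / 10) ρ' (by norm_num)
      (by norm_num) (fun v v' hv hv' => hlin u v v' hu' hv hv') y t ht' (by
        show ‖y - M (u, 0)‖ < _
        rw [hu0]
        linarith)
    refine ⟨v, hv, ?_⟩
    have := (key u v hu' (hv.trans_le ht')).2.1
    rw [← this]
    exact congrArg φ hMv.symm
  · intro u v hu hv
    have hu' : ‖u‖ < ρ' := hu.trans_le (min_le_left _ _)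
    have hv' : ‖v‖ < ρ' := hv.trans_le (min_le_left _ _)
    have hu0 : M (u, 0) = u := (key u 0 hu' (by simpa using hρ')).2.2
    refine ⟨M (u, v), ?_, (key u v hu' hv').2.1⟩
    have h := hlin u v 0 hu' hv' (by simpa using hρ')
    rw [hu0, sub_zero, one_smul] at h
    have h2 : ‖M (u, v) - u‖ ≤ ‖M (u, v) - u - v‖ + ‖v‖ := by
      have := norm_add_le (M (u, v) - u - v) v
      simpa using this
    have := norm_nonneg v
    linarith

end Fermat.Agent.S27.F
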