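import Fermat.Agent.S27.F.Deriv
import Fermat.Agent.S27.F.Solve

/-!
# S27 [F], package F-A2: multiplication by `n` in the chart
-/

set_option autoImplicit false

namespace Fermat.Agent.S27.F

open Metric Set Topology Filter

variable {J : Type*} [AddCommGroup J] {E : Type*} [NormedAddCommGroup E] [NormedSpace ℝ E]

/-- the `k`-fold iterate of the local group law. -/
def mulIter (M : E × E → E) : ℕ → E → E
  | 0 => fun _ => 0
  | (k + 1) => fun u => M (mulIter M k u, u)

omit [NormedSpace ℝ E] in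
theorem mul_iter_zero (M : E × E → E) (hM0 : M (0, 0) = 0) (k : ℕ) : mulIter M k 0 = 0 := by
  induction k with
  | zero => rfl
  | succ k ih =>
    show M (mulIter M k 0, 0) = 0
    rw [ih, hM0]

theorem mul_iter_hasStrictFDerivAt (M : E × E → E) (hM0 : M (0, 0) = 0)
    (hD : HasStrictFDerivAt M
      (ContinuousLinearMap.fst ℝ E E + ContinuousLinearMap.snd ℝ E E) (0, 0)) (k : ℕ) :
    HasStrictFDerivAt (mulIter M k) ((k : ℝ) • ContinuousLinearMap.id ℝ E) 0 := by
  induction k with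
  | zero =>
    have : HasStrictFDerivAt (fun _ : E => (0 : E)) (0 : E →L[ℝ] E) 0 :=
      hasStrictFDerivAt_const _ _
    simpa [mulIter] using this
  | succ k ih =>
    have h1 : HasStrictFDerivAt (fun u : E => (mulIter M k u, u))
        (((k : ℝ) • ContinuousLinearMap.id ℝ E).prod (ContinuousLinearMap.id ℝ E)) 0 :=
      ih.prodMk (hasStrictFDerivAt_id 0)
    have hD' : HasStrictFDerivAt M
        (ContinuousLinearMap.fst ℝ E E + ContinuousLinearMap.snd ℝ E E)
        ((fun u : E => (mulIter M k u, u)) 0) := by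
      show HasStrictFDerivAt M _ (mulIter M k 0, 0)
      rw [mul_iter_zero M hM0 k]
      exact hD
    have h2 := HasStrictFDerivAt.comp (g := M) (f := fun u : E => (mulIter M k u, u)) 0 hD' h1
    have e : (ContinuousLinearMap.fst ℝ E E + ContinuousLinearMap.snd ℝ E E).comp
        (((k : ℝ) • ContinuousLinearMap.id ℝ E).prod (ContinuousLinearMap.id ℝ E)) =
        (((k + 1 : ℕ) : ℝ) • ContinuousLinearMap.id ℝ E) := by
      ext x
      simp [add_smul]
    rw [e] at h2
    exact h2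

theorem mul_iter_eventually (φ : E → J) (M : E × E → E) (h0 : φ 0 = 0) (hM0 : M (0, 0) = 0)
    (hD : HasStrictFDerivAt M
      (ContinuousLinearMap.fst ℝ E E + ContinuousLinearMap.snd ℝ E E) (0, 0))
    (hadd : ∀ᶠ p : E × E in 𝓝 (0, 0), φ (M p) = φ p.1 + φ p.2) (k : ℕ) :
    ∀ᶠ u : E in 𝓝 0, φ (mulIter M k u) = k • φ u := by
  induction k with
  | zero => exact Eventually.of_forall fun u => by simp [mulIter, h0]
  | succ k ih =>
    have hc : Tendsto (fun u : E => (mulIter M k u, u)) (𝓝 0) (𝓝 (0, 0)) := by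
      have h1 : Tendsto (mulIter M k) (𝓝 0) (𝓝 0) := by
        have := (mul_iter_hasStrictFDerivAt M hM0 hD k).continuousAt.tendsto
        rwa [mul_iter_zero M hM0 k] at this
      exact h1.prodMk_nhds tendsto_id
    filter_upwards [hc.eventually hadd, ih] with u hu1 hu2
    show φ (M (mulIter M k u, u)) = _
    rw [hu1, succ_nsmul]
    exact congrArg (· + φ u) hu2

variable [FiniteDimensional ℝ E]

theorem exists_isMulChart (φ : E → J) (M : E × E → E) (r₀ : ℝ) (hr₀ : 0 < r₀)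
    (hinj : Set.InjOn φ (ball (0 : E) r₀)) (h0 : φ 0 = 0) (hM0 : M (0, 0) = 0)
    (hM : ∃ L : E × E →L[ℝ] E, HasStrictFDerivAt M L (0, 0))
    (hadd : ∀ᶠ p : E × E in 𝓝 (0, 0), φ (M p) = φ p.1 + φ p.2) (n : ℕ) (hn : 0 < n) :
    ∃ ρ : ℝ, IsMulChart φ n ρ := by
  have : CompleteSpace E := FiniteDimensional.complete ℝ E
  have hD := hasStrictFDerivAt_M φ M r₀ hr₀ hinj h0 hM0 hM hadd
  have hDn := mul_iter_hasStrictFDerivAt M hM0 hD n
  have hev := mul_iter_eventually φ M h0 hM0 hD hadd n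
  have hm0 := mul_iter_zero M hM0 n
  obtain ⟨s, hs, happ⟩ := hDn.approximates_deriv_on_nhds (c := (1 / 2 : NNReal))
    (Or.inr (by norm_num))
  have hall : ∀ᶠ u : E in 𝓝 0, u ∈ s ∧ φ (mulIter M n u) = n • φ u :=
    (eventually_mem_set.mpr hs).and hev
  obtain ⟨ρ', hρ', hball⟩ := Metric.eventually_nhds_iff_ball.mp hall
  have key : ∀ u : E, ‖u‖ < ρ' → u ∈ s ∧ φ (mulIter M n u) = n • φ u := fun u hu =>
    hball u (by simpa using hu)
  have hlin : ∀ u u' : E, ‖u‖ < ρ' → ‖u'‖ < ρ' →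
      ‖mulIter M n u - mulIter M n u' - (n : ℝ) • (u - u')‖ ≤ 1 / 2 * ‖u - u'‖ := by
    intro u u' hu hu'
    have h := happ u (key u hu).1 u' (key u' hu').1
    simpa using h
  have hn1 : (1 : ℝ) ≤ n := by exact_mod_cast hn
  have hup : ∀ u : E, ‖u‖ < ρ' → ‖mulIter M n u - (n : ℝ) • u‖ ≤ ‖u‖ / 2 := by
    intro u hu
    have h := hlin u 0 hu (by simpa using hρ')
    rw [hm0, sub_zero, sub_zero] at h
    linarith
  refine ⟨min ρ' (r₀ / ((n : ℝ) + 1 / 2)), ?_, ?_, ?_, ?_⟩
  · exact lt_min hρ' (by positivity)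
  · intro u hu
    have hu' : ‖u‖ < ρ' := hu.trans_le (min_le_left _ _)
    exact ⟨mulIter M n u, hup u hu', (key u hu').2⟩
  · intro y r hr hy
    have hr' : r ≤ ρ' := hr.trans (min_le_left _ _)
    obtain ⟨u, hu, hMu⟩ := solve_exists (mulIter M n) n (1 / 2) ρ' (by norm_num)
      (by linarith) hlin y r hr' (by rw [hm0, sub_zero]; exact hy)
    refine ⟨u, hu, ?_⟩
    rw [← (key u (hu.trans_le hr')).2, hMu]
  · intro u hu htors
    have hu' : ‖u‖ < ρ' := hu.trans_le (min_le_left _ _)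
    have hu'' : ‖u‖ < r₀ / ((n : ℝ) + 1 / 2) := hu.trans_le (min_le_right _ _)
    have hpos : (0 : ℝ) < (n : ℝ) + 1 / 2 := by positivity
    have h1 := hup u hu'
    have hnu : ‖(n : ℝ) • u‖ = n * ‖u‖ := by
      rw [norm_smul, Real.norm_of_nonneg (by positivity)]
    have h2 : ‖mulIter M n u‖ ≤ ((n : ℝ) + 1 / 2) * ‖u‖ := by
      have := norm_add_le (mulIter M n u - (n : ℝ) • u) ((n : ℝ) • u)
      rw [sub_add_cancel, hnu] at this
      linarith
    have h3 : ‖mulIter M n u‖ < r₀ := by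
      rw [lt_div_iff₀ hpos] at hu''
      linarith
    have h4 : mulIter M n u = 0 := by
      apply hinj (by simpa using h3) (by simpa using hr₀)
      rw [(key u hu').2, htors, h0]
    rw [h4, zero_sub, norm_neg, hnu] at h1
    have h5 : ‖u‖ ≤ 0 := by nlinarith [norm_nonneg u]
    exact norm_le_zero_iff.mp h5

end Fermat.Agent.S27.F
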