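import Fermat.Agent.S27.F.Defs

/-!
# S27 [F], package F-E: nets in a finite dimensional normed space (volume argument)
-/

set_option autoImplicit false

namespace Fermat.Agent.S27.F

open Metric Set MeasureTheory Module
open scoped ENNReal

section
variable {E : Type*} [NormedAddCommGroup E] [NormedSpace ℝ E] [FiniteDimensional ℝ E]

open scoped Function in
theorem net_upper {R r : ℝ} (hR : 0 < R) (hr : 0 < r) (s : Finset E) (hs : ∀ c ∈ s, ‖c‖ < R)
    (h : ∀ c ∈ s, ∀ d ∈ s, c ≠ d → r ≤ ‖c - d‖) :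
    (s.card : ℝ) ≤ (1 + 2 * R / r) ^ finrank ℝ E := by
  borelize E
  let μ : Measure E := Measure.addHaar
  let δ : ℝ := r / 2
  let ρ : ℝ := R + r / 2
  have δpos : 0 < δ := by positivity
  have ρpos : 0 < ρ := by positivity
  set A := ⋃ c ∈ s, ball (c : E) δ with hA
  have D : Set.Pairwise (s : Set E) (Disjoint on fun c => ball (c : E) δ) := by
    rintro c hc d hd hcd
    apply ball_disjoint_ball
    rw [dist_eq_norm]
    have := h c hc d hd hcd
    change r / 2 + r / 2 ≤ _
    linarith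
  have A_subset : A ⊆ ball (0 : E) ρ := by
    refine iUnion₂_subset fun x hx => ?_
    apply ball_subset_ball'
    rw [dist_zero_right]
    change r / 2 + ‖x‖ ≤ R + r / 2
    linarith [hs x hx]
  have I :
    (s.card : ℝ≥0∞) * ENNReal.ofReal (δ ^ finrank ℝ E) * μ (ball 0 1) ≤
      ENNReal.ofReal (ρ ^ finrank ℝ E) * μ (ball 0 1) :=
    calc
      (s.card : ℝ≥0∞) * ENNReal.ofReal (δ ^ finrank ℝ E) * μ (ball 0 1) = μ A := by
        rw [hA, measure_biUnion_finset D fun c _ => measurableSet_ball]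
        simp only [μ.addHaar_ball_of_pos _ δpos]
        simp only [Finset.sum_const, nsmul_eq_mul, mul_assoc]
      _ ≤ μ (ball (0 : E) ρ) := measure_mono A_subset
      _ = ENNReal.ofReal (ρ ^ finrank ℝ E) * μ (ball 0 1) := by
        simp only [μ.addHaar_ball_of_pos _ ρpos]
  have J : (s.card : ℝ≥0∞) * ENNReal.ofReal (δ ^ finrank ℝ E) ≤ ENNReal.ofReal (ρ ^ finrank ℝ E) :=
    (ENNReal.mul_le_mul_iff_left (measure_ball_pos _ _ zero_lt_one).ne' measure_ball_lt_top.ne).1 I
  have K := ENNReal.toReal_le_of_le_ofReal (pow_nonneg ρpos.le _) J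
  rw [ENNReal.toReal_mul, ENNReal.toReal_natCast,
    ENNReal.toReal_ofReal (pow_nonneg δpos.le _)] at K
  have hδ : 0 < δ ^ finrank ℝ E := pow_pos δpos _
  have K2 : (s.card : ℝ) ≤ ρ ^ finrank ℝ E / δ ^ finrank ℝ E := (le_div_iff₀ hδ).mpr K
  rw [← div_pow] at K2
  have h3 : ρ / δ = 1 + 2 * R / r := by
    change (R + r / 2) / (r / 2) = _
    field_simp
    ring
  rwa [h3] at K2

theorem net_lower {R r : ℝ} (hR : 0 < R) (hr : 0 < r) (s : Finset E)
    (h : ∀ x : E, ‖x‖ < R → ∃ c ∈ s, ‖x - c‖ < r) :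
    (R / r) ^ finrank ℝ E ≤ (s.card : ℝ) := by
  borelize E
  let μ : Measure E := Measure.addHaar
  have hsub : ball (0 : E) R ⊆ ⋃ c ∈ s, ball (c : E) r := by
    intro x hx
    rw [mem_ball_zero_iff] at hx
    obtain ⟨c, hc, hxc⟩ := h x hx
    simp only [mem_iUnion]
    exact ⟨c, hc, by rwa [mem_ball, dist_eq_norm]⟩
  have I : ENNReal.ofReal (R ^ finrank ℝ E) * μ (ball 0 1) ≤
      (s.card : ℝ≥0∞) * ENNReal.ofReal (r ^ finrank ℝ E) * μ (ball 0 1) :=
    calc
      ENNReal.ofReal (R ^ finrank ℝ E) * μ (ball 0 1) = μ (ball (0 : E) R) := by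
        simp only [μ.addHaar_ball_of_pos _ hR]
      _ ≤ μ (⋃ c ∈ s, ball (c : E) r) := measure_mono hsub
      _ ≤ ∑ c ∈ s, μ (ball (c : E) r) := measure_biUnion_finset_le _ _
      _ = (s.card : ℝ≥0∞) * ENNReal.ofReal (r ^ finrank ℝ E) * μ (ball 0 1) := by
        simp only [μ.addHaar_ball_of_pos _ hr]
        simp only [Finset.sum_const, nsmul_eq_mul, mul_assoc]
  have J : ENNReal.ofReal (R ^ finrank ℝ E) ≤ (s.card : ℝ≥0∞) * ENNReal.ofReal (r ^ finrank ℝ E) :=
    (ENNReal.mul_le_mul_iff_left (measure_ball_pos _ _ zero_lt_one).ne' measure_ball_lt_top.ne).1 I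
  have hrd : 0 < r ^ finrank ℝ E := pow_pos hr _
  have J2 : ENNReal.ofReal (R ^ finrank ℝ E) ≤
      ENNReal.ofReal ((s.card : ℝ) * r ^ finrank ℝ E) := by
    rw [ENNReal.ofReal_mul (Nat.cast_nonneg _), ENNReal.ofReal_natCast]
    exact J
  have K : R ^ finrank ℝ E ≤ (s.card : ℝ) * r ^ finrank ℝ E :=
    (ENNReal.ofReal_le_ofReal_iff (by positivity)).mp J2
  rw [div_pow]
  exact (div_le_iff₀ hrd).mpr K

end

theorem netStatement (E : Type*) [NormedAddCommGroup E] [NormedSpace ℝ E]
    [FiniteDimensional ℝ E] : NetStatement E := by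
  classical
  intro R r hR hr
  let P : Finset E → Prop := fun S =>
    (∀ s ∈ S, ‖s‖ < R) ∧ (∀ s ∈ S, ∀ t ∈ S, s ≠ t → r ≤ ‖s - t‖)
  let Q : ℕ → Prop := fun N => ∃ S : Finset E, P S ∧ S.card = N
  obtain ⟨B, hB⟩ := exists_nat_ge ((1 + 2 * R / r) ^ finrank ℝ E)
  have hbound : ∀ S : Finset E, P S → S.card ≤ B := by
    intro S hS
    have := (net_upper hR hr S hS.1 hS.2).trans hB
    exact_mod_cast this
  have hQ0 : Q 0 := ⟨∅, ⟨by simp, by simp⟩, rfl⟩
  obtain ⟨S, hS, hScard⟩ : Q (Nat.findGreatest Q B) := Nat.findGreatest_spec (Nat.zero_le B) hQ0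
  have hmax : ∀ S' : Finset E, P S' → S'.card ≤ S.card := by
    intro S' hS'
    rw [hScard]
    exact Nat.le_findGreatest (hbound S' hS') ⟨S', hS', rfl⟩
  have hcov : ∀ x : E, ‖x‖ < R → ∃ s ∈ S, ‖x - s‖ < r := by
    intro x hx
    by_contra hcon
    push Not at hcon
    have hxS : x ∉ S := by
      intro hxS
      have := hcon x hxS
      rw [sub_self, norm_zero] at this
      linarith
    have hP : P (insert x S) := by
      refine ⟨?_, ?_⟩
      · intro s hs
        rcases Finset.mem_insert.mp hs with rfl | hs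
        · exact hx
        · exact hS.1 s hs
      · intro s hs t ht hst
        rcases Finset.mem_insert.mp hs with hsx | hs'
        · rcases Finset.mem_insert.mp ht with htx | ht'
          · exact absurd (hsx.trans htx.symm) hst
          · rw [hsx]
            exact hcon t ht'
        · rcases Finset.mem_insert.mp ht with htx | ht'
          · rw [htx, norm_sub_rev]
            exact hcon s hs'
          · exact hS.2 s hs' t ht' hst
    have := hmax _ hP
    rw [Finset.card_insert_of_notMem hxS] at this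
    omega
  exact ⟨S, hS.1, hS.2, hcov, net_lower hR hr S hcov, net_upper hR hr S hS.1 hS.2⟩

end Fermat.Agent.S27.F
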