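import Fermat.Agent.S27.F.Defs

/-!
# S27 [F], package F-C2: refining covers and separated sets with Euclidean nets
-/

set_option autoImplicit false

namespace Fermat.Agent.S27.F

open Metric Set

variable {J : Type*} [AddCommGroup J] {E : Type*} [NormedAddCommGroup E] [NormedSpace ℝ E]
variable {φ : E → J} {ρ : ℝ}

/-- (c) an `R`-cover refines to an `r`-cover. -/
theorem exists_refine_cover (hnet : NetStatement E) (hc : IsChart φ ρ) {R r : ℝ} (hr : 0 < r)
    (hrR : r ≤ R) (hR : R ≤ ρ) {T : Finset J} (hT : IsCover φ R T) :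
    ∃ T' : Finset J, IsCover φ r T' ∧
      (T'.card : ℝ) ≤ T.card * (1 + 4 * R / r) ^ Module.finrank ℝ E := by
  classical
  obtain ⟨S, hS1, -, hS3, -, hS5⟩ := hnet R (r / 2) (by linarith) (by linarith)
  refine ⟨(T ×ˢ S).image (fun x => x.1 + φ x.2), ?_, ?_⟩
  · intro c
    obtain ⟨t, ht, hmem⟩ := hT c
    obtain ⟨x, hx, hφx⟩ := mem_W.mp hmem
    obtain ⟨s, hs, hxs⟩ := hS3 x hx
    obtain ⟨v, hv, hφv⟩ := hc.lower s x r ((hS1 s hs).trans_le hR) (hrR.trans hR) hxs
    refine ⟨t + φ s, Finset.mem_image.mpr ⟨(t, s), Finset.mem_product.mpr ⟨ht, hs⟩, rfl⟩,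
      mem_W.mpr ⟨v, hv, ?_⟩⟩
    have : c - (t + φ s) = (c - t) - φ s := by abel
    rw [this, ← hφx, hφv]
    abel
  · have h1 : ((T ×ˢ S).image (fun x => x.1 + φ x.2)).card ≤ T.card * S.card := by
      rw [← Finset.card_product]
      exact Finset.card_image_le
    have h2 : (((T ×ˢ S).image (fun x => x.1 + φ x.2)).card : ℝ) ≤ (T.card : ℝ) * S.card := by
      exact_mod_cast h1
    have h3 : 1 + 2 * R / (r / 2) = 1 + 4 * R / r := by
      field_simp
      ring
    rw [h3] at hS5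
    exact h2.trans (mul_le_mul_of_nonneg_left hS5 (Nat.cast_nonneg _))

/-- key step for `exists_refine_sep`. -/
theorem refine_key (hc : IsChart φ ρ) {R r : ℝ} (hr : 0 < r) (hrR : 4 * r ≤ R) (hR : R ≤ ρ)
    {T : Finset J} (hT : IsSep φ R T) {S : Finset E} (hS1 : ∀ s ∈ S, ‖s‖ < R / 8)
    (hS2 : ∀ s ∈ S, ∀ t ∈ S, s ≠ t → 2 * r ≤ ‖s - t‖) {t t' : J} {s s' : E} (ht : t ∈ T)
    (ht' : t' ∈ T) (hs : s ∈ S) (hs' : s' ∈ S) (h : (t + φ s) - (t' + φ s') ∈ W φ r) :
    t = t' ∧ s = s' := by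
  have hφs : φ s ∈ W φ (R / 8) := mem_W.mpr ⟨s, hS1 s hs, rfl⟩
  have hφs' : φ s' ∈ W φ (R / 8) := mem_W.mpr ⟨s', hS1 s' hs', rfl⟩
  have h1 := hc.add_mem (a := r) (b := R / 8) (by linarith) (by linarith) h hφs'
  have h2 := hc.sub_mem (a := r + 2 * (R / 8)) (b := R / 8) (by linarith) (by linarith) h1 hφs
  have h3 : (t + φ s) - (t' + φ s') + φ s' - φ s = t - t' := by abel
  rw [h3] at h2
  have htt : t = t' := by
    by_contra hne
    exact hT t ht t' ht' hne (W_mono (by linarith) h2)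
  refine ⟨htt, ?_⟩
  subst htt
  obtain ⟨v, hv, hφv⟩ := mem_W.mp h
  have h4 : φ s = φ s' + φ v := by
    rw [hφv]
    abel
  obtain ⟨y, hy, hφy⟩ := hc.upper s' v (by linarith [hS1 s' hs']) (by linarith)
  have hys : y = s := by
    apply hc.inj
    · rw [mem_ball_zero_iff]
      have h5 : ‖y‖ ≤ ‖y - s'‖ + ‖s'‖ := by
        have := norm_add_le (y - s') s'
        simpa using this
      linarith [hS1 s' hs']
    · rw [mem_ball_zero_iff]
      linarith [hS1 s hs]
    · rw [hφy, h4]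
  rw [hys] at hy
  by_contra hne
  have := hS2 s hs s' hs' hne
  linarith

/-- (d) an `R`-separated set refines to an `r`-separated set. -/
theorem exists_refine_sep (hnet : NetStatement E) (hc : IsChart φ ρ) {R r : ℝ} (hr : 0 < r)
    (hrR : 4 * r ≤ R) (hR : R ≤ ρ) {T : Finset J} (hT : IsSep φ R T) :
    ∃ T' : Finset J, IsSep φ r T' ∧
      (T.card : ℝ) * (R / (16 * r)) ^ Module.finrank ℝ E ≤ T'.card := by
  classical
  obtain ⟨S, hS1, hS2, -, hS4, -⟩ := hnet (R / 8) (2 * r) (by linarith) (by linarith)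
  refine ⟨(T ×ˢ S).image (fun x => x.1 + φ x.2), ?_, ?_⟩
  · intro x hx x' hx' hne hmem
    obtain ⟨⟨t, s⟩, hp, rfl⟩ := Finset.mem_image.mp hx
    obtain ⟨⟨t', s'⟩, hp', rfl⟩ := Finset.mem_image.mp hx'
    rw [Finset.mem_product] at hp hp'
    obtain ⟨h1, h2⟩ := refine_key (t := t) (t' := t') (s := s) (s' := s') hc hr hrR hR hT hS1 hS2
      hp.1 hp'.1 hp.2 hp'.2 hmem
    apply hne
    rw [h1, h2]
  · have hinj : Set.InjOn (fun x : J × E => x.1 + φ x.2) (T ×ˢ S : Finset (J × E)) := by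
      rintro ⟨t, s⟩ hx ⟨t', s'⟩ hx' hxx
      rw [Finset.mem_coe, Finset.mem_product] at hx hx'
      have hmem : (t + φ s) - (t' + φ s') ∈ W φ r := by
        have : t + φ s = t' + φ s' := hxx
        rw [this, sub_self]
        exact hc.zero_mem hr
      obtain ⟨h1, h2⟩ := refine_key (t := t) (t' := t') (s := s) (s' := s') hc hr hrR hR hT hS1
        hS2 hx.1 hx'.1 hx.2 hx'.2 hmem
      rw [h1, h2]
    rw [Finset.card_image_of_injOn hinj, Finset.card_product]
    push_cast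
    have h3 : R / 8 / (2 * r) = R / (16 * r) := by
      field_simp
      ring
    rw [h3] at hS4
    exact mul_le_mul_of_nonneg_left hS4 (Nat.cast_nonneg _)

end Fermat.Agent.S27.F
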