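import Fermat.Agent.S27.F.Sep
import Fermat.Agent.S27.F.Refine

/-!
# S27 [F], package F-C3: two-sided bound for `#J[n]` with absolute constants
-/

set_option autoImplicit false

namespace Fermat.Agent.S27.F

open Metric Set

variable {J : Type*} [AddCommGroup J] {E : Type*} [NormedAddCommGroup E] [NormedSpace ℝ E]
variable {φ : E → J} {ρ ρn : ℝ}

/-- key step of the upper bound. -/
theorem tors_key (hc : IsChart φ ρ) {n : ℕ} (hm : IsMulChart φ n ρn) (σ : J → J)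
    (hσ : ∀ c, n • σ c = c) {r R : ℝ} (hr : r ≤ ρn) (hR : R = ((n : ℝ) + 1 / 2) * r)
    {T : Finset J} (hT : IsSep φ R T) {t t' z z' : J} (ht : t ∈ T) (ht' : t' ∈ T)
    (hz : n • z = 0) (hz' : n • z' = 0) (h : (σ t + z) - (σ t' + z') ∈ W φ r) :
    t = t' ∧ z = z' := by
  obtain ⟨u, hu, hφ⟩ := mem_W.mp h
  have h1 : n • φ u = t - t' := by
    rw [hφ, smul_sub, smul_add, smul_add, hσ, hσ, hz, hz', add_zero, add_zero]
  obtain ⟨y, hy, hφy⟩ := hm.upper u (hu.trans_le hr)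
  have hn0 : (0 : ℝ) ≤ n := Nat.cast_nonneg n
  have hy' : ‖y‖ < R := by
    have h2 : ‖y‖ ≤ ‖y - (n : ℝ) • u‖ + ‖(n : ℝ) • u‖ := by
      have := norm_add_le (y - (n : ℝ) • u) ((n : ℝ) • u)
      simpa using this
    have h3 : ‖(n : ℝ) • u‖ = (n : ℝ) * ‖u‖ := by
      rw [norm_smul, Real.norm_of_nonneg hn0]
    have h4 : ((n : ℝ) + 1 / 2) * ‖u‖ < ((n : ℝ) + 1 / 2) * r :=
      mul_lt_mul_of_pos_left hu (by linarith)
    rw [hR]
    nlinarith
  have htt : t = t' := by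
    by_contra hne
    exact hT t ht t' ht' hne (mem_W.mpr ⟨y, hy', by rw [hφy, h1]⟩)
  refine ⟨htt, ?_⟩
  subst htt
  rw [sub_self] at h1
  have hu0 : u = 0 := hm.tors u (hu.trans_le hr) h1
  rw [hu0, hc.zero] at hφ
  have : σ t + z = σ t + z' := (sub_eq_zero.mp hφ.symm)
  exact add_left_cancel this

theorem card_tors_le (hnet : NetStatement E) (hc : IsChart φ ρ)
    (htb : ∀ r : ℝ, 0 < r → ∃ T : Finset J, IsCover φ r T) {n : ℕ} (hn : 0 < n)
    (hm : IsMulChart φ n ρn) (hdiv : ∀ c : J, ∃ b : J, n • b = c)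
    (Z : Finset J) (hZ : ∀ z ∈ Z, n • z = 0) :
    (Z.card : ℝ) ≤ (61 * (n : ℝ)) ^ Module.finrank ℝ E := by
  classical
  choose σ hσ using hdiv
  have hn1 : (1 : ℝ) ≤ n := by exact_mod_cast hn
  set d := Module.finrank ℝ E with hd
  -- the scales
  obtain ⟨r, hr0, hrρn, hrρ⟩ : ∃ r : ℝ, 0 < r ∧ r ≤ ρn ∧ 2 * (((n : ℝ) + 1 / 2) * r) ≤ ρ := by
    refine ⟨min ρn (ρ / (2 * ((n : ℝ) + 1 / 2))), lt_min hm.pos (div_pos hc.pos (by linarith)),
      min_le_left _ _, ?_⟩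
    have h1 : min ρn (ρ / (2 * ((n : ℝ) + 1 / 2))) ≤ ρ / (2 * ((n : ℝ) + 1 / 2)) := min_le_right _ _
    have h2 : (0 : ℝ) < 2 * ((n : ℝ) + 1 / 2) := by linarith
    have h3 := (le_div_iff₀ h2).mp h1
    linarith
  set R : ℝ := ((n : ℝ) + 1 / 2) * r with hR
  have hR0 : 0 < R := mul_pos (by linarith) hr0
  have hrR : r ≤ R := by
    rw [hR]
    nlinarith
  obtain ⟨T, hTne, hTsep, hTcov⟩ := exists_maximal_sep hc htb hR0 hrρ
  obtain ⟨T', hT'cov, hT'card⟩ := exists_refine_cover hnet hc (R := 2 * R) (r := r / 5)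
    (by linarith) (by linarith) hrρ hTcov
  -- the separated set
  set F : J × J → J := fun x => σ x.1 + x.2 with hF
  have hinj : Set.InjOn F (T ×ˢ Z : Finset (J × J)) := by
    rintro ⟨t, z⟩ hx ⟨t', z'⟩ hx' hxx
    rw [Finset.mem_coe, Finset.mem_product] at hx hx'
    have hmem : (σ t + z) - (σ t' + z') ∈ W φ r := by
      have : σ t + z = σ t' + z' := hxx
      rw [this, sub_self]
      exact hc.zero_mem hr0
    obtain ⟨h1, h2⟩ := tors_key (t := t) (t' := t') hc hm σ hσ hrρn hR hTsep hx.1 hx'.1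
      (hZ z hx.2) (hZ z' hx'.2) hmem
    rw [h1, h2]
  have hUsep : IsSep φ r ((T ×ˢ Z).image F) := by
    intro x hx x' hx' hne hmem
    obtain ⟨⟨t, z⟩, hp, rfl⟩ := Finset.mem_image.mp hx
    obtain ⟨⟨t', z'⟩, hp', rfl⟩ := Finset.mem_image.mp hx'
    rw [Finset.mem_product] at hp hp'
    obtain ⟨h1, h2⟩ := tors_key (t := t) (t' := t') hc hm σ hσ hrρn hR hTsep hp.1 hp'.1
      (hZ z hp.2) (hZ z' hp'.2) hmem
    apply hne
    rw [h1, h2]
  have hUcard : ((T ×ˢ Z).image F).card = T.card * Z.card := by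
    rw [Finset.card_image_of_injOn hinj, Finset.card_product]
  have hle : ((T ×ˢ Z).image F).card ≤ T'.card :=
    card_le_of_sep_of_cover hc (r := r) (r' := r / 5) (by linarith) (by linarith) hUsep hT'cov
  rw [hUcard] at hle
  have hle' : (T.card : ℝ) * Z.card ≤ T'.card := by exact_mod_cast hle
  have hTpos : (0 : ℝ) < T.card := by exact_mod_cast hTne.card_pos
  have hconst : 1 + 4 * (2 * R) / (r / 5) = 40 * (n : ℝ) + 21 := by
    rw [hR]
    field_simp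
    ring
  rw [hconst] at hT'card
  have h5 : (T.card : ℝ) * Z.card ≤ T.card * (40 * (n : ℝ) + 21) ^ d := hle'.trans hT'card
  have h6 : (Z.card : ℝ) ≤ (40 * (n : ℝ) + 21) ^ d := le_of_mul_le_mul_left h5 hTpos
  refine h6.trans (pow_le_pow_left₀ (by linarith) (by linarith) d)

theorem le_card_tors (hnet : NetStatement E) (hc : IsChart φ ρ)
    (htb : ∀ r : ℝ, 0 < r → ∃ T : Finset J, IsCover φ r T) {n : ℕ} (hn : 41 ≤ n)
    (hm : IsMulChart φ n ρn) (hdiv : ∀ c : J, ∃ b : J, n • b = c)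
    (Z : Finset J) (hZ : ∀ z : J, z ∈ Z ↔ n • z = 0) :
    ((n : ℝ) / 320) ^ Module.finrank ℝ E ≤ (Z.card : ℝ) := by
  classical
  choose σ hσ using hdiv
  have hn1 : (41 : ℝ) ≤ n := by exact_mod_cast hn
  set d := Module.finrank ℝ E with hd
  obtain ⟨r, hr0, hrρn, hrρ⟩ : ∃ r : ℝ, 0 < r ∧ r ≤ ρn ∧ ((n : ℝ) - 1 / 2) * r ≤ ρ := by
    refine ⟨min ρn (ρ / ((n : ℝ) - 1 / 2)), lt_min hm.pos (div_pos hc.pos (by linarith)),
      min_le_left _ _, ?_⟩
    have h1 : min ρn (ρ / ((n : ℝ) - 1 / 2)) ≤ ρ / ((n : ℝ) - 1 / 2) := min_le_right _ _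
    have h2 : (0 : ℝ) < (n : ℝ) - 1 / 2 := by linarith
    have h3 := (le_div_iff₀ h2).mp h1
    linarith
  set R : ℝ := ((n : ℝ) - 1 / 2) * r / 2 with hR
  have hR0 : 0 < R := by
    rw [hR]
    have : 0 < ((n : ℝ) - 1 / 2) * r := mul_pos (by linarith) hr0
    linarith
  have h2R : 2 * R = ((n : ℝ) - 1 / 2) * r := by rw [hR]; ring
  have h20 : 4 * (5 * r) ≤ R := by
    rw [hR]
    nlinarith
  obtain ⟨T, hTne, hTsep, hTcov⟩ := exists_maximal_sep hc htb hR0 (by rw [h2R]; exact hrρ)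
  obtain ⟨T'', hT''sep, hT''card⟩ := exists_refine_sep hnet hc (R := R) (r := 5 * r)
    (by linarith) h20 (by linarith) hTsep
  set F : J × J → J := fun x => σ x.1 + x.2 with hF
  have hUcov : IsCover φ r ((T ×ˢ Z).image F) := by
    intro c
    obtain ⟨t, ht, hmem⟩ := hTcov (n • c)
    obtain ⟨y, hy, hφy⟩ := mem_W.mp hmem
    rw [h2R] at hy
    obtain ⟨u, hu, hφu⟩ := hm.lower y r hrρn hy
    have hz : c - σ t - φ u ∈ Z := by
      rw [hZ, smul_sub, smul_sub, hσ, ← hφu, hφy, sub_self]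
    refine ⟨σ t + (c - σ t - φ u), Finset.mem_image.mpr ⟨(t, c - σ t - φ u),
      Finset.mem_product.mpr ⟨ht, hz⟩, rfl⟩, mem_W.mpr ⟨u, hu, ?_⟩⟩
    abel
  have hle : T''.card ≤ ((T ×ˢ Z).image F).card :=
    card_le_of_sep_of_cover hc (r := 5 * r) (r' := r) (by nlinarith) le_rfl hT''sep hUcov
  have hle2 : ((T ×ˢ Z).image F).card ≤ T.card * Z.card := by
    rw [← Finset.card_product]
    exact Finset.card_image_le
  have hle' : (T''.card : ℝ) ≤ (T.card : ℝ) * Z.card := by exact_mod_cast hle.trans hle2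
  have hTpos : (0 : ℝ) < T.card := by exact_mod_cast hTne.card_pos
  have hconst : R / (16 * (5 * r)) = ((n : ℝ) - 1 / 2) / 160 := by
    rw [hR]
    field_simp
    ring
  rw [hconst] at hT''card
  have h5 : (T.card : ℝ) * (((n : ℝ) - 1 / 2) / 160) ^ d ≤ T.card * Z.card :=
    hT''card.trans hle'
  have h6 : (((n : ℝ) - 1 / 2) / 160) ^ d ≤ (Z.card : ℝ) := le_of_mul_le_mul_left h5 hTpos
  refine le_trans (pow_le_pow_left₀ (by positivity) (by linarith) d) h6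

end Fermat.Agent.S27.F
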