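import Fermat.Agent.S27.F.Local
import Fermat.Agent.S27.F.Mul
import Fermat.Agent.S27.F.Net
import Fermat.Agent.S27.F.Tors
import Fermat.Agent.S27.F.Div
import Fermat.Agent.S27.F.Limit

/-!
# S27, block [F]: the abstract counting theorem `#J[n] = n ^ dim E`
-/

set_option autoImplicit false

namespace Fermat.Agent.S27

open Metric Set Topology Filter F

theorem card_torsion_of_chart
    {J : Type*} [AddCommGroup J]
    {E : Type*} [NormedAddCommGroup E] [NormedSpace ℝ E] [FiniteDimensional ℝ E]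
    (φ : E → J) (M : E × E → E) (r₀ : ℝ) (hr₀ : 0 < r₀)
    (hinj : Set.InjOn φ (ball (0 : E) r₀)) (h0 : φ 0 = 0)
    (hM0 : M (0, 0) = 0)
    (hM : ∃ L : E × E →L[ℝ] E, HasStrictFDerivAt M L (0, 0))
    (hadd : ∀ᶠ p : E × E in 𝓝 (0, 0), φ (M p) = φ p.1 + φ p.2)
    (htb : ∀ r : ℝ, 0 < r → ∃ T : Finset J, ∀ c : J, ∃ t ∈ T, ∃ u ∈ ball (0 : E) r, c = t + φ u)
    (hconn : ∀ r : ℝ, 0 < r → AddSubgroup.closure (φ '' ball (0 : E) r) = ⊤)
    (n : ℕ) (hn : 0 < n) :
    Nat.card {c : J // n • c = 0} = n ^ Module.finrank ℝ E := by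
  classical
  set d := Module.finrank ℝ E with hd
  obtain ⟨ρ, hc⟩ := exists_isChart φ M r₀ hr₀ hinj h0 hM0 hM hadd
  have hnet := netStatement E
  have htb' : ∀ r : ℝ, 0 < r → ∃ T : Finset J, IsCover φ r T := by
    intro r hr
    obtain ⟨T, hT⟩ := htb r hr
    refine ⟨T, fun c => ?_⟩
    obtain ⟨t, ht, u, hu, rfl⟩ := hT c
    exact ⟨t, ht, by rw [add_sub_cancel_left]; exact mem_image_of_mem φ hu⟩
  have hmul : ∀ m : ℕ, 0 < m → ∃ ρm : ℝ, IsMulChart φ m ρm := fun m hm =>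
    exists_isMulChart φ M r₀ hr₀ hinj h0 hM0 hM hadd m hm
  have hdiv : ∀ m : ℕ, 0 < m → ∀ c : J, ∃ b : J, m • b = c := fun m hm => by
    obtain ⟨ρm, h⟩ := hmul m hm
    exact divisible hconn hm h
  have hfin : ∀ m : ℕ, 0 < m → {c : J | m • c = 0}.Finite := by
    intro m hm
    by_contra hinf
    obtain ⟨ρm, h⟩ := hmul m hm
    obtain ⟨Z, hZ, hcard⟩ := (Set.not_finite.mp hinf).exists_subset_card_eq
      (⌈(61 * (m : ℝ)) ^ d⌉₊ + 1)
    have h1 := card_tors_le hnet hc htb' hm h (hdiv m hm) Z (fun z hz => hZ hz)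
    rw [hcard] at h1
    have h2 := Nat.le_ceil ((61 * (m : ℝ)) ^ d)
    push_cast at h1
    linarith
  have hcard : ∀ m : ℕ, ∀ hm : 0 < m,
      Nat.card {c : J // m • c = 0} = (hfin m hm).toFinset.card := by
    intro m hm
    have := Nat.card_coe_set_eq {c : J | m • c = 0}
    rw [Set.ncard_eq_toFinset_card _ (hfin m hm)] at this
    exact this
  have hup : ∀ m : ℕ, 0 < m → (Nat.card {c : J // m • c = 0} : ℝ) ≤ (61 * (m : ℝ)) ^ d := by
    intro m hm
    obtain ⟨ρm, h⟩ := hmul m hm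
    rw [hcard m hm]
    exact card_tors_le hnet hc htb' hm h (hdiv m hm) _ (fun z hz => by simpa using hz)
  have hlow : ∀ m : ℕ, 41 ≤ m → ((m : ℝ) / 320) ^ d ≤ (Nat.card {c : J // m • c = 0} : ℝ) := by
    intro m hm
    have hm0 : 0 < m := by omega
    obtain ⟨ρm, h⟩ := hmul m hm0
    rw [hcard m hm0]
    exact le_card_tors hnet hc htb' hm h (hdiv m hm0) _ (fun z => by simp)
  rcases Nat.lt_or_ge n 2 with h1 | h2
  · have hn1 : n = 1 := by omega
    subst hn1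
    simp only [one_smul, one_pow]
    exact Nat.card_unique
  · refine eq_of_pow_bounds _ (n ^ d) (by positivity) ((1 / 320 : ℝ) ^ d) ((61 : ℝ) ^ d)
      (by positivity) 6 (fun k hk => ?_)
    have hpow := (card_tors_pow n (hdiv n hn) (hfin n hn) k).2
    have hnk : 41 ≤ n ^ k := by
      calc 41 ≤ 2 ^ 6 := by norm_num
        _ ≤ n ^ 6 := Nat.pow_le_pow_left h2 6
        _ ≤ n ^ k := Nat.pow_le_pow_right hn hk
    have h3 := hlow (n ^ k) hnk
    have h4 := hup (n ^ k) (by positivity)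
    rw [hpow] at h3 h4
    push_cast at h3 h4 ⊢
    constructor
    · calc (1 / 320 : ℝ) ^ d * ((n : ℝ) ^ d) ^ k = ((n : ℝ) ^ k / 320) ^ d := by
            rw [div_pow, div_pow, one_pow, ← pow_mul, ← pow_mul, mul_comm d k]; ring
        _ ≤ _ := h3
    · calc _ ≤ (61 * (n : ℝ) ^ k) ^ d := h4
        _ = (61 : ℝ) ^ d * ((n : ℝ) ^ d) ^ k := by
            rw [mul_pow, ← pow_mul, ← pow_mul, mul_comm d k]

end Fermat.Agent.S27
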