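import Fermat.Agent.S27.F.Defs

/-!
# S27 [F], package F-C1: separated sets versus covers
-/

set_option autoImplicit false

namespace Fermat.Agent.S27.F

open Metric Set

variable {J : Type*} [AddCommGroup J] {E : Type*} [NormedAddCommGroup E] [NormedSpace ℝ E]
variable {φ : E → J} {ρ : ℝ}

/-- (a) a separated set is not larger than a finer cover. -/
theorem card_le_of_sep_of_cover (hc : IsChart φ ρ) {r r' : ℝ} (hr' : 2 * r' ≤ ρ) (h : 5 * r' ≤ r)
    {T T' : Finset J} (hT : IsSep φ r T) (hT' : IsCover φ r' T') : T.card ≤ T'.card := by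
  classical
  choose f hf hfW using hT'
  have hρ := hc.pos
  refine Finset.card_le_card_of_injOn f (fun t _ => hf t) ?_
  intro t₁ ht₁ t₂ ht₂ h12
  by_contra hne
  refine hT t₁ ht₁ t₂ ht₂ hne ?_
  have h1 : (t₁ - f t₁) - (t₂ - f t₂) ∈ W φ (r' + 4 * r') :=
    hc.sub_mem (by linarith) hr' (hfW t₁) (hfW t₂)
  have h2 : (t₁ - f t₁) - (t₂ - f t₂) = t₁ - t₂ := by
    rw [h12]; abel
  rw [h2] at h1
  exact W_mono (by linarith) h1

/-- (b) a separated set of maximal cardinality exists and is a cover at the double scale. -/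
theorem exists_maximal_sep (hc : IsChart φ ρ) (htb : ∀ r : ℝ, 0 < r → ∃ T : Finset J, IsCover φ r T)
    {r : ℝ} (hr : 0 < r) (hr' : 2 * r ≤ ρ) :
    ∃ T : Finset J, T.Nonempty ∧ IsSep φ r T ∧ IsCover φ (2 * r) T := by
  classical
  obtain ⟨T₀, hT₀⟩ := htb (r / 5) (by positivity)
  have hbound : ∀ T : Finset J, IsSep φ r T → T.card ≤ T₀.card := fun T hT =>
    card_le_of_sep_of_cover hc (by linarith) (by linarith) hT hT₀
  -- the set of cardinalities of separated sets is bounded and nonempty
  have hex : ∃ k, ∃ T : Finset J, IsSep φ r T ∧ T.card = k := ⟨0, ∅, by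
    intro t ht; simp at ht, rfl⟩
  let k := Nat.findGreatest (fun k => ∃ T : Finset J, IsSep φ r T ∧ T.card = k) T₀.card
  have hk : ∃ T : Finset J, IsSep φ r T ∧ T.card = k := by
    refine Nat.findGreatest_spec (P := fun k => ∃ T : Finset J, IsSep φ r T ∧ T.card = k)
      (m := 0) (Nat.zero_le _) ⟨∅, ?_, rfl⟩
    intro t ht; simp at ht
  have hmax : ∀ T : Finset J, IsSep φ r T → T.card ≤ k := fun T hT =>
    Nat.le_findGreatest (P := fun k => ∃ T : Finset J, IsSep φ r T ∧ T.card = k)
      (hbound T hT) ⟨T, hT, rfl⟩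
  obtain ⟨T, hT, hTk⟩ := hk
  have hcover : IsCover φ (2 * r) T := by
    intro c
    by_cases hcT : c ∈ T
    · exact ⟨c, hcT, by rw [sub_self]; exact hc.zero_mem (by positivity)⟩
    · by_contra hcon
      push Not at hcon
      have hsep : IsSep φ r (insert c T) := by
        intro t ht t' ht' hne hmem
        rcases Finset.mem_insert.mp ht with h1 | h1
        · rcases Finset.mem_insert.mp ht' with h2 | h2
          · exact hne (h1.trans h2.symm)
          · rw [h1] at hmem
            exact hcon t' h2 (W_mono (by linarith) hmem)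
        · rcases Finset.mem_insert.mp ht' with h2 | h2
          · have := hc.neg_mem hr' hmem
            rw [neg_sub, h2] at this
            exact hcon t h1 this
          · exact hT t h1 t' h2 hne hmem
      have := hmax _ hsep
      rw [Finset.card_insert_of_notMem hcT] at this
      omega
  refine ⟨T, ?_, hT, hcover⟩
  obtain ⟨t, ht, _⟩ := hcover 0
  exact ⟨t, ht⟩

end Fermat.Agent.S27.F
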